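/-
P-ES / ES-B / ESB-11a (helper33), abstract part: for a constant field extension of function
fields, generation by `K`-combinations of `bc Fk` and finiteness of `Fk` over `k(x)` imply
finiteness of `FK` over `K(bc x)`.  Mathlib only.
-/
import Mathlib

set_option autoImplicit false

noncomputable section

open IntermediateField

namespace Fermat.Agent.H33.ESB

variable {k K Fk FK : Type*} [Field k] [Field K] [Field Fk] [Field FK]
  [Algebra k Fk] [Algebra K FK]

/-- `bc` maps `k(x)` into `K(bc x)`. -/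
theorem bc_mem_adjoin_simple (ι : k →+* K) (bc : Fk →+* FK)
    (bc_algebraMap : ∀ a : k, bc (algebraMap k Fk a) = algebraMap K FK (ι a))
    (x : Fk) {c : Fk} (hc : c ∈ k⟮x⟯) : bc c ∈ K⟮bc x⟯ := by
  induction hc using IntermediateField.adjoin_induction with
  | mem y hy =>
    rw [Set.mem_singleton_iff] at hy
    subst hy
    exact IntermediateField.mem_adjoin_simple_self K _
  | algebraMap a =>
    rw [bc_algebraMap]
    exact (K⟮bc x⟯).algebraMap_mem _
  | add y z _ _ hy hz =>
    rw [map_add]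
    exact add_mem hy hz
  | inv y _ hy =>
    rw [map_inv₀]
    exact inv_mem hy
  | mul y z _ _ hy hz =>
    rw [map_mul]
    exact mul_mem hy hz

/-- Finiteness of `FK` over `K(bc x)` from generation and finiteness of `Fk` over `k(x)`. -/
theorem finiteDimensional_of_gen (ι : k →+* K) (bc : Fk →+* FK)
    (bc_algebraMap : ∀ a : k, bc (algebraMap k Fk a) = algebraMap K FK (ι a))
    (gen : ∀ h : FK, ∃ (n : ℕ) (e : Fin n → K) (u w : Fin n → Fk),
      ∑ i, algebraMap K FK (e i) * bc (w i) ≠ 0 ∧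
      h * ∑ i, algebraMap K FK (e i) * bc (w i) = ∑ i, algebraMap K FK (e i) * bc (u i))
    (x : Fk) (x_fin : FiniteDimensional k⟮x⟯ Fk) : FiniteDimensional K⟮bc x⟯ FK := by
  classical
  have h1 : ∀ c : Fk, c ∈ k⟮x⟯ → bc c ∈ K⟮bc x⟯ := fun c hc =>
    bc_mem_adjoin_simple ι bc bc_algebraMap x hc
  let b := Module.finBasis k⟮x⟯ Fk
  let B : Subalgebra K⟮bc x⟯ FK := Algebra.adjoin K⟮bc x⟯ (Set.range bc)
  let V : Submodule K⟮bc x⟯ FK := Submodule.span K⟮bc x⟯ (Set.range (fun i => bc (b i)))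
  have h2 : ∀ f : Fk, bc f ∈ V := by
    intro f
    have hf : f = ∑ i, (b.repr f i) • b i := (b.sum_repr f).symm
    rw [hf, map_sum]
    refine Submodule.sum_mem _ (fun i _ => ?_)
    have e1 : bc ((b.repr f i) • b i)
        = (⟨bc (b.repr f i : Fk), h1 _ (b.repr f i).2⟩ : K⟮bc x⟯) • bc (b i) := by
      rw [IntermediateField.smul_def, smul_eq_mul, map_mul, IntermediateField.smul_def,
        smul_eq_mul]
    rw [e1]
    exact Submodule.smul_mem _ _ (Submodule.subset_span ⟨i, rfl⟩)
  have h3 : Subalgebra.toSubmodule B = V := by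
    apply le_antisymm
    · rw [Algebra.adjoin_eq_span, Submodule.span_le]
      intro y hy
      have hcl : Submonoid.closure (Set.range bc) ≤ (bc.rangeS).toSubmonoid :=
        (Submonoid.closure_le).2 (fun z hz => hz)
      obtain ⟨f, rfl⟩ := hcl hy
      exact h2 f
    · rw [Submodule.span_le]
      rintro _ ⟨i, rfl⟩
      exact Algebra.subset_adjoin ⟨b i, rfl⟩
  have hVfin : Module.Finite K⟮bc x⟯ V :=
    Module.Finite.span_of_finite _ (Set.finite_range _)
  have hBfin : Module.Finite K⟮bc x⟯ (Subalgebra.toSubmodule B) := by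
    rw [h3]; exact hVfin
  have hBfin' : Module.Finite K⟮bc x⟯ B := hBfin
  have hB : B = ⊤ := by
    rw [eq_top_iff]
    intro h _
    obtain ⟨n, e, u, w, hw, huw⟩ := gen h
    have hmem : ∀ v : Fin n → Fk, ∑ i, algebraMap K FK (e i) * bc (v i) ∈ B := by
      intro v
      refine Subalgebra.sum_mem _ (fun i _ => ?_)
      refine Subalgebra.mul_mem _ ?_ (Algebra.subset_adjoin ⟨v i, rfl⟩)
      have e2 : algebraMap K FK (e i) = algebraMap K⟮bc x⟯ FK (algebraMap K K⟮bc x⟯ (e i)) := rfl
      rw [e2]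
      exact Subalgebra.algebraMap_mem _ _
    have halg0 : IsAlgebraic K⟮bc x⟯ (⟨_, hmem w⟩ : B) := Algebra.IsAlgebraic.isAlgebraic _
    have halg : IsAlgebraic K⟮bc x⟯ (((⟨_, hmem w⟩ : B) : FK)) :=
      (isAlgebraic_algebraMap_iff (A := FK) (Subtype.val_injective)).2 halg0
    have hinv := B.inv_mem_of_algebraic halg
    have e3 : h = (∑ i, algebraMap K FK (e i) * bc (u i)) *
        (∑ i, algebraMap K FK (e i) * bc (w i))⁻¹ := by
      rw [← huw, mul_assoc, mul_inv_cancel₀ hw, mul_one]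
    rw [e3]
    exact B.mul_mem (hmem u) hinv
  have e4 : (⊤ : Subalgebra K⟮bc x⟯ FK) ≃ₗ[K⟮bc x⟯] FK :=
    (Subalgebra.topEquiv (R := K⟮bc x⟯) (A := FK)).toLinearEquiv
  rw [hB] at hBfin'
  exact Module.Finite.equiv e4

end Fermat.Agent.H33.ESB

end
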