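/-
P-ES / ES-B / ESB-11a (helper33): the coefficientwise base change
`laurentBaseChange ℚ̄ F₀ → laurentBaseChange ℂ F₀` along `ι : ℚ̄ → ℂ`, linear disjointness and
generation.  (Generic in `F₀`.)
-/
import Mathlib
import Fermat.Prelude.Def_ModularCurve_LaurentCoeff

set_option autoImplicit false

noncomputable section

open IntermediateField

namespace Fermat.Agent.H33.ESB

open ModularCurve

variable (ι : AlgebraicClosure ℚ →+* ℂ) (F₀ : IntermediateField ℚ (LaurentSeries ℚ))

theorem coeffMap_coeffEmb_bar (z : LaurentSeries ℚ) :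
    coeffMap ι (coeffEmb (AlgebraicClosure ℚ) z) = coeffEmb ℂ z := by
  rw [coeffEmb, coeffMap_coeffMap]
  exact coeffMap_congr (Subsingleton.elim _ _) z

theorem coeffMap_algebraMap_bar (a : AlgebraicClosure ℚ) :
    coeffMap ι (algebraMap (AlgebraicClosure ℚ) (LaurentSeries (AlgebraicClosure ℚ)) a)
      = algebraMap ℂ (LaurentSeries ℂ) (ι a) := by
  rw [algebraMap_laurentSeries_eq_single, algebraMap_laurentSeries_eq_single, coeffMap_single]

theorem coeffMap_mem_laurentBaseChange_bar {x : LaurentSeries (AlgebraicClosure ℚ)}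
    (hx : x ∈ laurentBaseChange (AlgebraicClosure ℚ) F₀) :
    coeffMap ι x ∈ laurentBaseChange ℂ F₀ := by
  rw [mem_laurentBaseChange_iff] at hx
  induction hx using Subfield.closure_induction with
  | mem y hy =>
      rcases hy with ⟨a, rfl⟩ | ⟨z, hz, rfl⟩
      · rw [coeffMap_algebraMap_bar]
        exact (laurentBaseChange ℂ F₀).algebraMap_mem _
      · rw [coeffMap_coeffEmb_bar]
        exact coeffEmb_mem_laurentBaseChange ℂ hz
  | one => simp
  | add x y _ _ hx hy => simpa using add_mem hx hy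
  | neg x _ hx => simpa using neg_mem hx
  | inv x _ hx => simpa using inv_mem hx
  | mul x y _ _ hx hy => simpa using mul_mem hx hy

/-- The coefficientwise base change of function fields. -/
def laurentBC : ↥(laurentBaseChange (AlgebraicClosure ℚ) F₀) →+* ↥(laurentBaseChange ℂ F₀) :=
  ((coeffMap ι).comp (algebraMap ↥(laurentBaseChange (AlgebraicClosure ℚ) F₀)
      (LaurentSeries (AlgebraicClosure ℚ)))).codRestrict (laurentBaseChange ℂ F₀)
    (fun x => coeffMap_mem_laurentBaseChange_bar ι F₀ x.2)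

@[simp]
theorem laurentBC_coe (f : ↥(laurentBaseChange (AlgebraicClosure ℚ) F₀)) :
    ((laurentBC ι F₀ f : ↥(laurentBaseChange ℂ F₀)) : LaurentSeries ℂ)
      = coeffMap ι (f : LaurentSeries (AlgebraicClosure ℚ)) := rfl

theorem laurentBC_algebraMap (a : AlgebraicClosure ℚ) :
    laurentBC ι F₀ (algebraMap (AlgebraicClosure ℚ) ↥(laurentBaseChange (AlgebraicClosure ℚ) F₀) a)
      = algebraMap ℂ ↥(laurentBaseChange ℂ F₀) (ι a) := by
  apply Subtype.ext
  rw [laurentBC_coe]
  exact coeffMap_algebraMap_bar ι a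

/-- Coefficients of a constant multiple. -/
theorem coeff_algebraMap_mul (c : ℂ) (x : LaurentSeries ℂ) (m : ℤ) :
    (algebraMap ℂ (LaurentSeries ℂ) c * x).coeff m = c * x.coeff m := by
  rw [algebraMap_laurentSeries_eq_single, HahnSeries.coeff_single_mul, sub_zero]

/-- The underlying Laurent series of a `ℂ`-combination of base-changed elements. -/
theorem coe_comb {n : ℕ} (e : Fin n → ℂ) (f : Fin n → ↥(laurentBaseChange (AlgebraicClosure ℚ) F₀)) :
    ((∑ i, algebraMap ℂ ↥(laurentBaseChange ℂ F₀) (e i) * laurentBC ι F₀ (f i) :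
        ↥(laurentBaseChange ℂ F₀)) : LaurentSeries ℂ)
      = ∑ i, algebraMap ℂ (LaurentSeries ℂ) (e i) *
          coeffMap ι ((f i : ↥(laurentBaseChange (AlgebraicClosure ℚ) F₀)) :
            LaurentSeries (AlgebraicClosure ℚ)) := by
  have h := map_sum (algebraMap ↥(laurentBaseChange ℂ F₀) (LaurentSeries ℂ))
    (fun i => algebraMap ℂ ↥(laurentBaseChange ℂ F₀) (e i) * laurentBC ι F₀ (f i)) Finset.univ
  exact h

/-- **Linear disjointness.** -/
theorem laurentBC_ld (n : ℕ) (e : Fin n → ℂ)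
    (f : Fin n → ↥(laurentBaseChange (AlgebraicClosure ℚ) F₀))
    (hind : ∀ c : Fin n → AlgebraicClosure ℚ, ∑ i, ι (c i) * e i = 0 → ∀ i, c i = 0)
    (h : ∑ i, algebraMap ℂ ↥(laurentBaseChange ℂ F₀) (e i) * laurentBC ι F₀ (f i) = 0) :
    ∀ i, f i = 0 := by
  have h' := congrArg (fun y : ↥(laurentBaseChange ℂ F₀) => (y : LaurentSeries ℂ)) h
  simp only [coe_comb] at h'
  have hm : ∀ m : ℤ, ∀ i, ((f i : ↥(laurentBaseChange (AlgebraicClosure ℚ) F₀)) :
      LaurentSeries (AlgebraicClosure ℚ)).coeff m = 0 := by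
    intro m
    refine hind (fun i => ((f i : ↥(laurentBaseChange (AlgebraicClosure ℚ) F₀)) :
      LaurentSeries (AlgebraicClosure ℚ)).coeff m) ?_
    have h2 := congrArg (fun y : LaurentSeries ℂ => y.coeff m) h'
    simp only [HahnSeries.coeff_sum, coeff_algebraMap_mul, coeffMap_coeff] at h2
    have h3 : ((0 : ↥(laurentBaseChange ℂ F₀)) : LaurentSeries ℂ).coeff m = 0 := rfl
    rw [h3] at h2
    rw [← h2]
    exact Finset.sum_congr rfl (fun i _ => mul_comm _ _)
  intro i
  apply Subtype.ext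
  ext m
  exact hm m i

/-- Elements of the `ℂ`-algebra generated by the generators of the function field are
`ℂ`-combinations of base-changed elements. -/
theorem exists_comb_of_mem_adjoin {r : LaurentSeries ℂ}
    (hr : r ∈ Algebra.adjoin ℂ (⇑(coeffEmb ℂ) '' (F₀ : Set (LaurentSeries ℚ)))) :
    ∃ (n : ℕ) (c : Fin n → ℂ) (u : Fin n → ↥(laurentBaseChange (AlgebraicClosure ℚ) F₀)),
      r = ∑ i, algebraMap ℂ (LaurentSeries ℂ) (c i) *
        coeffMap ι ((u i : ↥(laurentBaseChange (AlgebraicClosure ℚ) F₀)) :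
          LaurentSeries (AlgebraicClosure ℚ)) := by
  let φ : ↥(laurentBaseChange (AlgebraicClosure ℚ) F₀) →+* LaurentSeries ℂ :=
    (coeffMap ι).comp (algebraMap ↥(laurentBaseChange (AlgebraicClosure ℚ) F₀)
      (LaurentSeries (AlgebraicClosure ℚ)))
  have hsub : (⇑(coeffEmb ℂ) '' (F₀ : Set (LaurentSeries ℚ))) ⊆ Set.range φ := by
    rintro _ ⟨z, hz, rfl⟩
    exact ⟨⟨coeffEmb (AlgebraicClosure ℚ) z, coeffEmb_mem_laurentBaseChange _ hz⟩,
      coeffMap_coeffEmb_bar ι z⟩
  have h1 : r ∈ Algebra.adjoin ℂ (Set.range φ) := Algebra.adjoin_mono hsub hr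
  have h3 : r ∈ Subalgebra.toSubmodule (Algebra.adjoin ℂ (Set.range φ)) := h1
  rw [Algebra.adjoin_eq_span] at h3
  have hcl : ((Submonoid.closure (Set.range φ) : Submonoid (LaurentSeries ℂ)) :
      Set (LaurentSeries ℂ)) = Set.range φ := by
    apply le_antisymm
    · exact (Submonoid.closure_le (S := φ.rangeS.toSubmonoid)).2 (fun z hz => hz)
    · exact Submonoid.subset_closure
  rw [hcl] at h3
  obtain ⟨n, c, g, hg⟩ := (@Submodule.mem_span_set' ℂ (LaurentSeries ℂ) _ _ Algebra.toModule r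
    (Set.range φ)).1 h3
  choose u hu using fun i => (g i).2
  refine ⟨n, c, u, ?_⟩
  rw [← hg]
  refine Finset.sum_congr rfl (fun i _ => ?_)
  rw [Algebra.smul_def, ← hu i]
  rfl

/-- **Generation.** -/
theorem laurentBC_gen (h : ↥(laurentBaseChange ℂ F₀)) :
    ∃ (n : ℕ) (e : Fin n → ℂ) (u w : Fin n → ↥(laurentBaseChange (AlgebraicClosure ℚ) F₀)),
      ∑ i, algebraMap ℂ ↥(laurentBaseChange ℂ F₀) (e i) * laurentBC ι F₀ (w i) ≠ 0 ∧
      h * ∑ i, algebraMap ℂ ↥(laurentBaseChange ℂ F₀) (e i) * laurentBC ι F₀ (w i)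
        = ∑ i, algebraMap ℂ ↥(laurentBaseChange ℂ F₀) (e i) * laurentBC ι F₀ (u i) := by
  obtain ⟨r, hr, s, hs, hrs⟩ := IntermediateField.mem_adjoin_iff_div.1 h.2
  obtain ⟨n, c, u, hu⟩ := exists_comb_of_mem_adjoin ι F₀ hr
  obtain ⟨m, c', w, hw⟩ := exists_comb_of_mem_adjoin ι F₀ hs
  by_cases hs0 : s = 0
  · have h0 : h = 0 := by
      apply Subtype.ext
      rw [hrs, hs0, div_zero]
      rfl
    refine ⟨1, fun _ => 1, fun _ => 0, fun _ => 1, ?_, ?_⟩
    · simp
    · simp [h0]
  · have key : ∀ (a : Fin n → ↥(laurentBaseChange (AlgebraicClosure ℚ) F₀))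
        (b : Fin m → ↥(laurentBaseChange (AlgebraicClosure ℚ) F₀)),
        ((∑ i, algebraMap ℂ ↥(laurentBaseChange ℂ F₀) (Fin.append c c' i) *
            laurentBC ι F₀ (Fin.append a b i) : ↥(laurentBaseChange ℂ F₀)) : LaurentSeries ℂ)
          = (∑ i, algebraMap ℂ (LaurentSeries ℂ) (c i) *
              coeffMap ι ((a i : ↥(laurentBaseChange (AlgebraicClosure ℚ) F₀)) :
                LaurentSeries (AlgebraicClosure ℚ)))
            + ∑ j, algebraMap ℂ (LaurentSeries ℂ) (c' j) *
              coeffMap ι ((b j : ↥(laurentBaseChange (AlgebraicClosure ℚ) F₀)) :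
                LaurentSeries (AlgebraicClosure ℚ)) := by
      intro a b
      rw [coe_comb, Fin.sum_univ_add]
      simp only [Fin.append_left, Fin.append_right]
    have hW : ((∑ i, algebraMap ℂ ↥(laurentBaseChange ℂ F₀) (Fin.append c c' i) *
            laurentBC ι F₀ (Fin.append (fun _ => 0) w i) : ↥(laurentBaseChange ℂ F₀)) :
              LaurentSeries ℂ) = s := by
      rw [key, ← hw]
      simp
    have hU : ((∑ i, algebraMap ℂ ↥(laurentBaseChange ℂ F₀) (Fin.append c c' i) *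
            laurentBC ι F₀ (Fin.append u (fun _ => 0) i) : ↥(laurentBaseChange ℂ F₀)) :
              LaurentSeries ℂ) = r := by
      rw [key, ← hu]
      simp
    refine ⟨n + m, Fin.append c c', Fin.append u (fun _ => 0), Fin.append (fun _ => 0) w, ?_, ?_⟩
    · intro h0
      apply hs0
      rw [← hW, h0]
      rfl
    · apply Subtype.ext
      have e1 : ((h * ∑ i, algebraMap ℂ ↥(laurentBaseChange ℂ F₀) (Fin.append c c' i) *
            laurentBC ι F₀ (Fin.append (fun _ => 0) w i) : ↥(laurentBaseChange ℂ F₀)) :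
              LaurentSeries ℂ)
          = (h : LaurentSeries ℂ) * ((∑ i, algebraMap ℂ ↥(laurentBaseChange ℂ F₀)
              (Fin.append c c' i) * laurentBC ι F₀ (Fin.append (fun _ => 0) w i) :
                ↥(laurentBaseChange ℂ F₀)) : LaurentSeries ℂ) := rfl
      rw [e1, hW, hU, hrs, div_mul_cancel₀ _ hs0]

end Fermat.Agent.H33.ESB

end
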