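/-
P-ES / ES-B / ESB-11a (helper33): the Laurent base change
`modularFunctionFieldBar N → FC N` along `ι : ℚ̄ → ℂ` as a constant field extension
(`Fermat.Agent.H29.ConstExt`), with `bc` = coefficientwise `ι` and coordinate `x = j`.
-/
import Fermat.Agent.H29.ESB.Interfaces
import Fermat.Agent.H33.ESB.GenFinite
import Fermat.Agent.H33.ESB.LaurentBC
import Fermat.Agent.H83.Gen16Final
import Fermat.Agent.H69.JBarTranscendental

set_option autoImplicit false

noncomputable section

open IntermediateField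

namespace Fermat.Agent.H33.ESB

open ModularCurve Fermat.Agent.H29

/-- The base change of `j` is transcendental over `ℂ`. -/
theorem transcendental_laurentBC_jBar (N : ℕ) [NeZero N] (ι : AlgebraicClosure ℚ →+* ℂ) :
    Transcendental ℂ (laurentBC ι (modularFunctionFieldFull N) (Fermat.Agent.H23.jBar N)) := by
  intro halg
  have h1 : IsAlgebraic ℂ (algebraMap ↥(FC N) (LaurentSeries ℂ)
      (laurentBC ι (modularFunctionFieldFull N) (Fermat.Agent.H23.jBar N))) := halg.algebraMap
  have h2 : algebraMap ↥(FC N) (LaurentSeries ℂ)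
      (laurentBC ι (modularFunctionFieldFull N) (Fermat.Agent.H23.jBar N))
        = coeffEmb ℂ jq := coeffMap_coeffEmb_bar ι jq
  rw [h2] at h1
  exact Fermat.Agent.H69.transcendental_of_order_neg _
    (Fermat.Agent.H69.order_coeffEmb_jq_neg ℂ) h1

/-- **ESB-11a**: the Laurent constant field extension `ℚ̄(X₀(N)) → ℂ(X₀(N))`. -/
def laurentConstExt (N : ℕ) [NeZero N] (ι : AlgebraicClosure ℚ →+* ℂ) :
    ConstExt (AlgebraicClosure ℚ) ℂ ↥(modularFunctionFieldBar N) ↥(FC N) where
  ι := ι
  bc := laurentBC ι (modularFunctionFieldFull N)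
  bc_algebraMap := laurentBC_algebraMap ι (modularFunctionFieldFull N)
  ld := laurentBC_ld ι (modularFunctionFieldFull N)
  gen := laurentBC_gen ι (modularFunctionFieldFull N)
  x := Fermat.Agent.H23.jBar N
  x_transc := (Fermat.Agent.H83.degree N).1
  x_fin := (Fermat.Agent.H83.degree N).2.1
  bcx_transc := transcendental_laurentBC_jBar N ι
  bcx_fin := finiteDimensional_of_gen ι (laurentBC ι (modularFunctionFieldFull N))
    (laurentBC_algebraMap ι (modularFunctionFieldFull N))
    (laurentBC_gen ι (modularFunctionFieldFull N)) (Fermat.Agent.H23.jBar N)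
    (Fermat.Agent.H83.degree N).2.1

@[simp]
theorem laurentConstExt_ι (N : ℕ) [NeZero N] (ι : AlgebraicClosure ℚ →+* ℂ) :
    (laurentConstExt N ι).ι = ι := rfl

@[simp]
theorem laurentConstExt_x (N : ℕ) [NeZero N] (ι : AlgebraicClosure ℚ →+* ℂ) :
    (laurentConstExt N ι).x = Fermat.Agent.H23.jBar N := rfl

theorem laurentConstExt_bc (N : ℕ) [NeZero N] (ι : AlgebraicClosure ℚ →+* ℂ) :
    (laurentConstExt N ι).bc = laurentBC ι (modularFunctionFieldFull N) := rfl

theorem laurentConstExt_bc_coe (N : ℕ) [NeZero N] (ι : AlgebraicClosure ℚ →+* ℂ)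
    (f : ↥(modularFunctionFieldBar N)) :
    (((laurentConstExt N ι).bc f : ↥(FC N)) : LaurentSeries ℂ)
      = coeffMap ι (f : LaurentSeries (AlgebraicClosure ℚ)) := rfl

/-- The first two clauses of `Fermat.Agent.H29.LaurentInstanceStatement`. -/
theorem laurentConstExt_spec (N : ℕ) [NeZero N] (ι : AlgebraicClosure ℚ →+* ℂ) :
    ∃ E : ConstExt (AlgebraicClosure ℚ) ℂ ↥(modularFunctionFieldBar N) ↥(FC N),
      E.ι = ι ∧
      (∀ f : ↥(modularFunctionFieldBar N),
        ((E.bc f : ↥(FC N)) : LaurentSeries ℂ)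
          = coeffMap ι (f : LaurentSeries (AlgebraicClosure ℚ))) :=
  ⟨laurentConstExt N ι, rfl, fun _ => rfl⟩

end Fermat.Agent.H33.ESB

end
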